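import Fermat.Agent.S33.Val.Gauss
import Fermat.Agent.S34.Mod.Core

/-!
# S33/GEO : vocabulary for Kummer classes of exponent `p = q`   (helper1)

`q : Nat.Primes` is the prime `p`; place `AA q = primeLocalPlace q`; `Iq q`, `Dq q`.
-/

set_option autoImplicit false
set_option synthInstance.maxHeartbeats 400000

open HahnSeries ModularCurve AlgebraicCurve Fermat.Agent.S24 Fermat.Agent.S29 Fermat.Agent.S18
  Fermat.Agent.ES Fermat.Agent.ES.Alg Fermat.Agent.S34.Mod Fermat.Agent.S05 Fermat.Agent.S55.B ExtCitation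
open Fermat.Agent.S55 (Dq Iq)

noncomputable section

namespace Fermat.Agent.S33

/-- `σ = (·)^c` on `μ_p` -/
def Cyc (p : ℕ) (σ : GQ) (c : ℕ) : Prop := ∀ μ : Qb, μ ^ p = 1 → σ μ = μ ^ c

/-- `u` and `v` have the same class modulo `p`-th powers -/
def PEq {N : ℕ} (p : ℕ) (u v : FN N) : Prop := ∃ h : FN N, u = v * h ^ p

/-- `(σ - c_σ)(σ' - 1) [u] = 0` for all `σ, σ'` in the inertia group -/
def O1 (q : Nat.Primes) {N : ℕ} [NeZero N] (u : FN N) : Prop :=
  ∀ σ ∈ Iq q, ∀ σ' ∈ Iq q, ∀ c : ℕ, Cyc q σ c →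
    PEq (q : ℕ) (gal N σ (gal N σ' u) * u ^ c) (gal N σ u * gal N σ' u ^ c)

end Fermat.Agent.S33
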